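/-
P-S44/S40, block C2, leaf INT (independent second, helper63), file 3:
the logarithmic derivative of a Laurent series is `ord / z + (power series)`.
-/
import Mathlib
import Fermat.Agent.Lib.Residue.Basic

set_option autoImplicit false

noncomputable section

namespace Fermat.Agent.S40x.C2.IntB.DlogOrder

open HahnSeries LaurentSeries Fermat.Agent.Lib.Residue

variable {k : Type*} [Field k]

/-- `D g = (ord(g) / z + w) * g` with `w` a power series. -/
theorem exists_D_eq (g : k⸨X⸩) (hg : g ≠ 0) :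
    ∃ w : PowerSeries k, D g = (single (-1 : ℤ) ((g.order : ℤ) : k) + (w : k⸨X⸩)) * g := by
  set n := g.order with hn
  set u := g.powerSeriesPart with hu
  have hgu : g = single n (1 : k) * (u : k⸨X⸩) := (single_order_mul_powerSeriesPart g).symm
  have hu0 : PowerSeries.constantCoeff u ≠ 0 := by
    have h : g.coeff g.order ≠ 0 := fun h0 => hg (HahnSeries.coeff_order_eq_zero.1 h0)
    rw [hu, ← PowerSeries.coeff_zero_eq_constantCoeff_apply, LaurentSeries.powerSeriesPart_coeff]
    simpa using h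
  refine ⟨PowerSeries.derivative k u * u⁻¹, ?_⟩
  have hinv : u * u⁻¹ = 1 := PowerSeries.mul_inv_cancel u hu0
  conv_lhs => rw [hgu]
  rw [D_single_mul, D_coe, mul_one]
  conv_rhs => rw [hgu]
  rw [add_mul]
  congr 1
  · rw [← mul_assoc, single_mul_single, mul_one]
    rw [show n - 1 = -1 + n by ring]
  · have h1 : ((PowerSeries.derivative k u * u⁻¹ : PowerSeries k) : k⸨X⸩) * (u : k⸨X⸩) =
        ((PowerSeries.derivative k u : PowerSeries k) : k⸨X⸩) := by
      rw [← PowerSeries.coe_mul, mul_assoc, mul_comm u⁻¹ u, hinv, mul_one]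
    rw [mul_left_comm, h1]

/-- If `φ * g = D g` (`g ≠ 0`), then `φ` has a pole of order at most one with residue
`ord g`. -/
theorem coeff_of_mul_eq_D {g φ : k⸨X⸩} (hg : g ≠ 0) (h : φ * g = D g) (a : ℤ) (ha : a < 0) :
    φ.coeff a = if a = -1 then ((g.order : ℤ) : k) else 0 := by
  obtain ⟨w, hw⟩ := exists_D_eq g hg
  have hφ : φ = single (-1 : ℤ) ((g.order : ℤ) : k) + (w : k⸨X⸩) :=
    mul_right_cancel₀ hg (h.trans hw)
  rw [hφ, coeff_add, PowerSeries.coeff_coe, if_pos ha, add_zero]
  split_ifs with h1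
  · rw [h1, coeff_single_same]
  · rw [coeff_single_of_ne h1]

/-- In characteristic `p`, if `p ∣ ord g` and `φ * g = D g`, then `φ` is a power series: all its
negative coefficients vanish. -/
theorem coeff_eq_zero_of_dvd_order (p : ℕ) [CharP k p] {g φ : k⸨X⸩} (hg : g ≠ 0)
    (h : φ * g = D g) (hdvd : (p : ℤ) ∣ g.order) (a : ℤ) (ha : a < 0) : φ.coeff a = 0 := by
  rw [coeff_of_mul_eq_D hg h a ha]
  split_ifs
  · exact (CharP.intCast_eq_zero_iff k p _).2 hdvd
  · rfl

end Fermat.Agent.S40x.C2.IntB.DlogOrder
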