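/-
P-S44/S40, block C2, leaf INT (independent second, helper63), files 1+2:
derivations along a ring hom on a separable algebraic extension of `k(t)`.

`F / k(t)` separable algebraic, `ι : F →+* Ω` a ring hom into a field, `d : F → Ω` additive with
the Leibniz rule along `ι`, `d = 0` on `k`.  If `V` is an additive subgroup of `Ω` stable under
multiplication by `ι F` and `d t ∈ V`, then `d F ⊆ V` (`mem_of_separable`).  Consequences:

* `V = ι F`: a `k`-derivation `δ` of `Ω` with `δ (ι t) = 1` maps `ι F` into `ι F`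
  (`exists_preimage_deriv`), whence the restricted derivation `restrictDeriv : Derivation k F F`;
* `V = 0`: the chain rule `D' (τ u) = τ (∂ u) * D' (τ t)` for every `k`-embedding `τ : F → Ω`
  and `∂ : Derivation k F F` with `∂ t = 1` (`chain_rule`).
-/
import Mathlib

set_option autoImplicit false

noncomputable section

namespace Fermat.Agent.S40x.C2.IntB.SepDeriv

open Polynomial IntermediateField

variable {k F Ω : Type*} [Field k] [Field F] [Algebra k F] [Field Ω]

/-- `d : F → Ω` is additive and satisfies the Leibniz rule along the ring hom `ι : F →+* Ω`. -/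
structure IsDerivAlong (ι : F →+* Ω) (d : F → Ω) : Prop where
  map_add' : ∀ u v, d (u + v) = d u + d v
  leibniz' : ∀ u v, d (u * v) = ι u * d v + ι v * d u

namespace IsDerivAlong

variable {ι : F →+* Ω} {d : F → Ω} (hd : IsDerivAlong ι d)

include hd

theorem d_one : d 1 = 0 := by
  have h := hd.leibniz' 1 1
  rw [mul_one, _root_.map_one, one_mul] at h
  have h2 : d 1 + 0 = d 1 + d 1 := by rw [add_zero]; exact h
  exact (add_left_cancel h2).symm

theorem d_zero : d 0 = 0 := by
  have h := hd.map_add' 0 0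
  rw [add_zero] at h
  have h2 : d 0 + 0 = d 0 + d 0 := by rw [add_zero]; exact h
  exact (add_left_cancel h2).symm

theorem d_neg (u : F) : d (-u) = -d u := by
  have h := hd.map_add' u (-u)
  rw [add_neg_cancel, hd.d_zero] at h
  exact (neg_eq_of_add_eq_zero_right h.symm).symm

theorem d_sub (u v : F) : d (u - v) = d u - d v := by
  rw [sub_eq_add_neg, hd.map_add', hd.d_neg, sub_eq_add_neg]

theorem d_pow_succ (u : F) (n : ℕ) :
    d (u ^ (n + 1)) = ((n + 1 : ℕ) : Ω) * ι u ^ n * d u := by
  induction n with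
  | zero => simp
  | succ n ih =>
    rw [pow_succ, hd.leibniz', ih, _root_.map_pow]
    push_cast
    ring

theorem d_inv {u : F} (hu : u ≠ 0) : d u⁻¹ = -(ι u⁻¹ * ι u⁻¹ * d u) := by
  have h := hd.leibniz' u u⁻¹
  rw [mul_inv_cancel₀ hu, hd.d_one] at h
  have hιu : ι u ≠ 0 := (_root_.map_ne_zero ι).2 hu
  have h2 : ι u * d u⁻¹ = -(ι u⁻¹ * d u) := eq_neg_of_add_eq_zero_left h.symm
  have h3 : d u⁻¹ = (ι u)⁻¹ * (ι u * d u⁻¹) := by
    rw [← mul_assoc, inv_mul_cancel₀ hιu, one_mul]
  rw [h3, h2, _root_.map_inv₀]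
  ring

end IsDerivAlong

/-- **Main lemma.**  `F / k(t)` separable algebraic, `d` a derivation along `ι` killing `k`,
`V` an additive subgroup of `Ω` stable under multiplication by `ι F`.  If `d t ∈ V` then
`d u ∈ V` for all `u`. -/
theorem mem_of_separable {ι : F →+* Ω} {d : F → Ω} (hd : IsDerivAlong ι d) (t : F)
    [Algebra.IsSeparable k⟮t⟯ F] (hk : ∀ c : k, d (algebraMap k F c) = 0)
    (V : AddSubgroup Ω) (hV : ∀ (u : F) (w : Ω), w ∈ V → ι u * w ∈ V) (ht : d t ∈ V) (u : F) :
    d u ∈ V := by
  -- step K: `d` maps `k(t)` into `V`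
  have hK : ∀ x : F, x ∈ k⟮t⟯ → d x ∈ V := by
    intro x hx
    induction hx using IntermediateField.adjoin_induction with
    | mem x hx =>
      rw [Set.mem_singleton_iff] at hx
      rw [hx]; exact ht
    | algebraMap c => rw [hk c]; exact V.zero_mem
    | add x y _ _ hx hy => rw [hd.map_add']; exact V.add_mem hx hy
    | inv x _ hx =>
      by_cases hx0 : x = 0
      · rw [hx0, inv_zero, hd.d_zero]; exact V.zero_mem
      · rw [hd.d_inv hx0, ← map_mul]
        exact V.neg_mem (hV _ _ hx)
    | mul x y _ _ hx hy =>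
      rw [hd.leibniz']
      exact V.add_mem (hV _ _ hy) (hV _ _ hx)
  -- step P: the polynomial formula modulo `V`
  have hP : ∀ P : (k⟮t⟯)[X], d (aeval u P) - ι (aeval u (derivative P)) * d u ∈ V := by
    intro P
    induction P using Polynomial.induction_on' with
    | add p q hp hq =>
      have : d (aeval u (p + q)) - ι (aeval u (derivative (p + q))) * d u =
          (d (aeval u p) - ι (aeval u (derivative p)) * d u) +
            (d (aeval u q) - ι (aeval u (derivative q)) * d u) := by
        rw [map_add, map_add, map_add, hd.map_add', map_add]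
        ring
      rw [this]
      exact V.add_mem hp hq
    | monomial n a =>
      rw [aeval_monomial, derivative_monomial, aeval_monomial, hd.leibniz']
      have ha : d (algebraMap k⟮t⟯ F a) ∈ V := hK _ a.2
      rcases n with _ | n
      · simp only [pow_zero, Nat.cast_zero, mul_zero, map_zero, zero_mul, sub_zero,
          hd.d_one, mul_zero, zero_add, _root_.map_one, one_mul]
        exact ha
      · rw [hd.d_pow_succ, Nat.add_sub_cancel]
        have : ι (algebraMap k⟮t⟯ F a) * (((n + 1 : ℕ) : Ω) * ι u ^ n * d u) +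
            ι (u ^ (n + 1)) * d (algebraMap k⟮t⟯ F a) -
            ι (algebraMap k⟮t⟯ F (a * ((n + 1 : ℕ) : k⟮t⟯)) * u ^ n) * d u =
            ι (u ^ (n + 1)) * d (algebraMap k⟮t⟯ F a) := by
          simp only [map_mul, map_pow, map_natCast]
          ring
        rw [this]
        exact hV _ _ ha
  -- conclusion with the minimal polynomial
  have hsep : (minpoly k⟮t⟯ u).Separable := Algebra.IsSeparable.isSeparable k⟮t⟯ u
  have hw : aeval u (derivative (minpoly k⟮t⟯ u)) ≠ 0 :=
    hsep.aeval_derivative_ne_zero (minpoly.aeval k⟮t⟯ u)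
  have h1 := hP (minpoly k⟮t⟯ u)
  rw [minpoly.aeval, hd.d_zero, zero_sub] at h1
  have h2 : ι (aeval u (derivative (minpoly k⟮t⟯ u))) * d u ∈ V := by
    have := V.neg_mem h1
    rwa [neg_neg] at this
  have h3 := hV (aeval u (derivative (minpoly k⟮t⟯ u)))⁻¹ _ h2
  rwa [← mul_assoc, ← map_mul, inv_mul_cancel₀ hw, _root_.map_one, one_mul] at h3

section Restrict

variable [Algebra k Ω]

/-- A bare `k`-derivation of `Ω`: additive, Leibniz, zero on `k` (no `Module` instance is
involved, so that it applies to `LaurentSeries.derivative` whatever module structure is used). -/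
structure IsBareDeriv (k : Type*) {Ω : Type*} [Field k] [Field Ω] [Algebra k Ω] (δ : Ω → Ω) :
    Prop where
  map_add' : ∀ x y, δ (x + y) = δ x + δ y
  leibniz' : ∀ x y, δ (x * y) = x * δ y + y * δ x
  map_algebraMap' : ∀ c : k, δ (algebraMap k Ω c) = 0

theorem IsBareDeriv.map_one {δ : Ω → Ω} (hδ : IsBareDeriv k δ) : δ 1 = 0 := by
  have h := hδ.map_algebraMap' 1
  rwa [_root_.map_one] at h

theorem IsBareDeriv.map_smul {δ : Ω → Ω} (hδ : IsBareDeriv k δ) (c : k) (x : Ω) :
    δ (c • x) = c • δ x := by
  rw [Algebra.smul_def, hδ.leibniz', hδ.map_algebraMap', mul_zero, add_zero, Algebra.smul_def]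

/-- A `k`-derivation `δ` of `Ω` with `δ (ι t) = 1` maps `ι F` into itself. -/
theorem exists_preimage_deriv (ι : F →ₐ[k] Ω) {δ : Ω → Ω} (hδ : IsBareDeriv k δ) (t : F)
    [Algebra.IsSeparable k⟮t⟯ F] (ht : δ (ι t) = 1) (u : F) : ∃ v : F, ι v = δ (ι u) := by
  have hd : IsDerivAlong (ι : F →+* Ω) (fun u => δ (ι u)) :=
    ⟨fun u v => by simp only [map_add, hδ.map_add'], fun u v => by
      simp only [RingHom.coe_coe, map_mul, hδ.leibniz']⟩
  have h := mem_of_separable (k := k) hd t
    (fun c => by
      show δ (ι (algebraMap k F c)) = 0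
      rw [AlgHom.commutes, hδ.map_algebraMap'])
    (ι : F →+* Ω).range.toAddSubgroup
    (fun u w hw => by
      obtain ⟨v, rfl⟩ := hw
      exact ⟨u * v, by simp⟩)
    ⟨1, by simp [ht]⟩ u
  obtain ⟨v, hv⟩ := h
  exact ⟨v, hv⟩

/-- The restriction to `F` of a `k`-derivation `δ` of `Ω` with `δ (ι t) = 1`. -/
def restrictDeriv (ι : F →ₐ[k] Ω) {δ : Ω → Ω} (hδ : IsBareDeriv k δ) (t : F)
    [Algebra.IsSeparable k⟮t⟯ F] (ht : δ (ι t) = 1) : Derivation k F F where
  toFun u := (exists_preimage_deriv ι hδ t ht u).choose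
  map_add' u v := by
    have hinj : Function.Injective (ι : F → Ω) := fun a b h => (ι : F →+* Ω).injective h
    apply hinj
    rw [(exists_preimage_deriv ι hδ t ht (u + v)).choose_spec, map_add, hδ.map_add', map_add,
      (exists_preimage_deriv ι hδ t ht u).choose_spec,
      (exists_preimage_deriv ι hδ t ht v).choose_spec]
  map_smul' c u := by
    have hinj : Function.Injective (ι : F → Ω) := fun a b h => (ι : F →+* Ω).injective h
    apply hinj
    rw [(exists_preimage_deriv ι hδ t ht (c • u)).choose_spec, RingHom.id_apply, map_smul ι,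
      hδ.map_smul, map_smul ι, (exists_preimage_deriv ι hδ t ht u).choose_spec]
  map_one_eq_zero' := by
    have hinj : Function.Injective (ι : F → Ω) := fun a b h => (ι : F →+* Ω).injective h
    apply hinj
    show ι (exists_preimage_deriv ι hδ t ht 1).choose = ι 0
    rw [(exists_preimage_deriv ι hδ t ht 1).choose_spec, _root_.map_one, map_zero, hδ.map_one]
  leibniz' u v := by
    have hinj : Function.Injective (ι : F → Ω) := fun a b h => (ι : F →+* Ω).injective h
    apply hinj
    show ι (exists_preimage_deriv ι hδ t ht (u * v)).choose =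
      ι (u • (exists_preimage_deriv ι hδ t ht v).choose +
        v • (exists_preimage_deriv ι hδ t ht u).choose)
    rw [(exists_preimage_deriv ι hδ t ht (u * v)).choose_spec, map_mul, hδ.leibniz']
    simp only [smul_eq_mul, map_add, map_mul]
    rw [(exists_preimage_deriv ι hδ t ht u).choose_spec,
      (exists_preimage_deriv ι hδ t ht v).choose_spec]

theorem restrictDeriv_apply (ι : F →ₐ[k] Ω) {δ : Ω → Ω} (hδ : IsBareDeriv k δ) (t : F)
    [Algebra.IsSeparable k⟮t⟯ F] (ht : δ (ι t) = 1) (u : F) :
    ι (restrictDeriv ι hδ t ht u) = δ (ι u) :=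
  (exists_preimage_deriv ι hδ t ht u).choose_spec

theorem restrictDeriv_self (ι : F →ₐ[k] Ω) {δ : Ω → Ω} (hδ : IsBareDeriv k δ) (t : F)
    [Algebra.IsSeparable k⟮t⟯ F] (ht : δ (ι t) = 1) : restrictDeriv ι hδ t ht t = 1 := by
  have hinj : Function.Injective (ι : F → Ω) := fun a b h => (ι : F →+* Ω).injective h
  apply hinj
  rw [restrictDeriv_apply, ht, _root_.map_one]

/-- **Chain rule for embeddings.**  `∂` a `k`-derivation of `F` with `∂ t = 1`, `τ : F →+* Ω`
a ring hom which is the structure map on `k`, `D'` a `k`-derivation of `Ω`: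
`D' (τ u) = τ (∂ u) * D' (τ t)`. -/
theorem chain_rule (t : F) [Algebra.IsSeparable k⟮t⟯ F] (der : Derivation k F F)
    (hder : der t = 1) (τ : F →+* Ω) (hτ : ∀ c : k, τ (algebraMap k F c) = algebraMap k Ω c)
    {D' : Ω → Ω} (hD' : IsBareDeriv k D') (u : F) : D' (τ u) = τ (der u) * D' (τ t) := by
  have hd : IsDerivAlong τ (fun u => D' (τ u) - τ (der u) * D' (τ t)) :=
    ⟨fun u v => by simp only [map_add, hD'.map_add']; ring, fun u v => by
      simp only [map_mul, hD'.leibniz', Derivation.leibniz, smul_eq_mul, map_add]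
      ring⟩
  have h := mem_of_separable (k := k) hd t
    (fun c => by
      show D' (τ (algebraMap k F c)) - τ (der (algebraMap k F c)) * D' (τ t) = 0
      rw [hτ, hD'.map_algebraMap', Derivation.map_algebraMap, map_zero, zero_mul, sub_zero])
    ⊥ (fun u w hw => by
      rw [AddSubgroup.mem_bot] at hw ⊢
      rw [hw, mul_zero])
    (by
      rw [AddSubgroup.mem_bot]
      show D' (τ t) - τ (der t) * D' (τ t) = 0
      rw [hder, _root_.map_one, one_mul, sub_self]) u
  rw [AddSubgroup.mem_bot] at h
  exact sub_eq_zero.1 h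

end Restrict

end Fermat.Agent.S40x.C2.IntB.SepDeriv
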