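/-
P-S44/S40, block C2, leaf INT (independent second, helper63), file 4:
the derivation `d/dx₄` of the special fibre `Fk k N` (`4 ∣ N`), the chain rule at the cusp
embeddings, and the cusp-regularity of the logarithmic differential of a function all of whose
orders are divisible by the characteristic.

Output `int_four`: for `fb : Fk k N` with `p ∣ ord_v fb` at every place, the function
`hb := (d fb / d x₄) / fb` satisfies `hb * (q d x₄ / d q) = dlog fb` (as `q`-series) and the
cusp-regularity hypothesis of `Omega4.exists_basis_span_four`; the integrality hypothesis is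
passed through (`hint`), it is the conclusion of the leaves DER + UNR.
-/
import Mathlib
import Fermat.Agent.S40x.C2.IntB.SepDeriv
import Fermat.Agent.S40x.C2.IntB.DlogOrder
import Fermat.Agent.S40x.C2.DlogHecke
import Fermat.Agent.Gateway.GoodRed.TLineHurwitz
import Fermat.Agent.Gateway.GoodRed.ConjFamily.Places

set_option autoImplicit false
set_option linter.unusedSectionVars false
set_option linter.style.haveILetI false

noncomputable section

namespace Fermat.Agent.S40x.C2.IntB.Main

open ModularCurve HahnSeries AlgebraicCurve IntermediateField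
open Fermat.Agent.Lib.Residue Fermat.Agent.Gateway.GoodRed Fermat.Agent.Gateway.GoodRed.ConjFamily
open Fermat.Agent.Gateway.GoodRed.PlacesAtInfinity
open Fermat.Agent.S40x.C2.IntB.SepDeriv Fermat.Agent.S40x.C2.IntB.DlogOrder

section Series

variable (k : Type*) [Field k]

theorem coeff_x4k_neg_one : (TLine4.x4k k).coeff (-1) = 1 := by
  rw [TLine4.x4k_eq, coeff_single_mul', sub_self, one_mul, PowerSeries.coeff_coe,
    if_neg (lt_irrefl 0), Int.natAbs_zero, PowerSeries.coeff_zero_eq_constantCoeff_apply,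
    TLine4.constantCoeff_u4k]

theorem D_x4k_ne_zero : D (TLine4.x4k k) ≠ 0 := by
  intro h
  have h1 := congrArg (fun s : LaurentSeries k => s.coeff (-2)) h
  simp only [D_coeff, HahnSeries.coeff_zero] at h1
  rw [show (-2 : ℤ) + 1 = -1 by norm_num, coeff_x4k_neg_one, mul_one] at h1
  simp at h1

/-- the derivation `d / d x₄` of `k((q))` -/
def dX4 (f : LaurentSeries k) : LaurentSeries k := (D (TLine4.x4k k))⁻¹ * D f

theorem dX4_apply (f : LaurentSeries k) : dX4 k f = (D (TLine4.x4k k))⁻¹ * D f := rfl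

theorem dX4_x4k : dX4 k (TLine4.x4k k) = 1 := by
  rw [dX4_apply, inv_mul_cancel₀ (D_x4k_ne_zero k)]

theorem isBareDeriv_D : IsBareDeriv k (D : LaurentSeries k → LaurentSeries k) :=
  ⟨D_add, fun x y => by rw [D_mul]; ring, fun c => by
    rw [← Fermat.Agent.S28.C_eq_algebraMap_laurent, D_C]⟩

theorem isBareDeriv_dX4 : IsBareDeriv k (dX4 k) :=
  ⟨fun x y => by simp only [dX4_apply, D_add, mul_add], fun x y => by
    simp only [dX4_apply, D_mul]; ring, fun c => by
    rw [dX4_apply, (isBareDeriv_D k).map_algebraMap', mul_zero]⟩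

end Series

variable {k : Type} [Field k] [IsAlgClosed k] {N : ℕ} [NeZero N]

section Deriv

variable (hNk : (N : k) ≠ 0) (t : Fk k N) (ht : (t : LaurentSeries k) = TLine4.x4k k)

include ht in
theorem dX4_val_t : dX4 k ((Fk k N).val t) = 1 := by
  rw [IntermediateField.coe_val, ht, dX4_x4k]

/-- **The derivation `d / d x₄` of the special fibre `Fk k N`.** -/
def derivFk : Derivation k (Fk k N) (Fk k N) :=
  haveI := TLineHurwitz.isSeparable_t4 N hNk t ht
  restrictDeriv (Fk k N).val (isBareDeriv_dX4 k) t (dX4_val_t t ht)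

theorem derivFk_coe (u : Fk k N) :
    ((derivFk hNk t ht u : Fk k N) : LaurentSeries k) * D (TLine4.x4k k) =
      D (u : LaurentSeries k) := by
  haveI := TLineHurwitz.isSeparable_t4 N hNk t ht
  have h := restrictDeriv_apply (Fk k N).val (isBareDeriv_dX4 k) t (dX4_val_t t ht) u
  rw [IntermediateField.coe_val, dX4_apply] at h
  show ((restrictDeriv (Fk k N).val (isBareDeriv_dX4 k) t (dX4_val_t t ht) u : Fk k N) :
    LaurentSeries k) * D (TLine4.x4k k) = _
  rw [h, mul_comm, ← mul_assoc, mul_inv_cancel₀ (D_x4k_ne_zero k), one_mul]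

theorem derivFk_t : derivFk hNk t ht t = 1 := by
  haveI := TLineHurwitz.isSeparable_t4 N hNk t ht
  exact restrictDeriv_self (Fk k N).val (isBareDeriv_dX4 k) t (dX4_val_t t ht)

/-- **Chain rule at a cusp embedding**: `d/dz (τ u) = τ (du/dx₄) * d/dz (τ x₄)`. -/
theorem D_emb (τ : Emb k N) (u : Fk k N) :
    D (τ.1 u) = τ.1 (derivFk hNk t ht u) * D (τ.1 t) := by
  haveI := TLineHurwitz.isSeparable_t4 N hNk t ht
  exact chain_rule (k := k) t (derivFk hNk t ht) (derivFk_t hNk t ht) τ.1
    (fun c => by rw [emb_algebraMap, Fermat.Agent.S28.C_eq_algebraMap_laurent])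
    (isBareDeriv_D k) u

/-- The logarithmic differential `hb = (d fb / d x₄) / fb` times `q d x₄ / d q` is the
`q`-series `dlog fb`. -/
theorem coe_mul_theta (fb : Fk k N) :
    ((derivFk hNk t ht fb / fb : Fk k N) : LaurentSeries k) *
        (HahnSeries.single (1 : ℤ) (1 : k) * D (TLine4.x4k k)) =
      Fermat.Agent.S40x.C2.DlogHecke.dlog (fb : LaurentSeries k) := by
  rw [Fermat.Agent.S40x.C2.DlogHecke.dlog, Fermat.Agent.S16.Two.thetaL, ← derivFk_coe hNk t ht fb]
  push_cast
  ring

end Deriv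

section CuspRegular

variable (p : ℕ) [CharP k p] (hNk : (N : k) ≠ 0) (t : Fk k N)
  (ht : (t : LaurentSeries k) = TLine4.x4k k)

include hNk in
/-- `p ∣ ord_v fb` at every place implies `p ∣ ord_z (τ fb)` at every cusp embedding. -/
theorem dvd_order_emb (fb : Fk k N) (hdiv : ∀ v : Place k (Fk k N), (p : ℤ) ∣ v.ord fb)
    (τ : Emb k N) : (p : ℤ) ∣ (τ.1 fb).order := by
  classical
  obtain ⟨ζ, hζ⟩ := Fermat.Agent.S28.Tower.exists_primitiveRoot_unit (k := k) N hNk
  letI := fintypeEmb hNk
  obtain ⟨pl, hpl⟩ := exists_polePlaces_Fk hNk ζ hζ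
  have h := hpl.2.2.2.2 τ fb
  rw [h]
  exact Dvd.dvd.mul_left (hdiv (pl τ)) _

/-- **Cusp regularity.**  If `p ∣ ord_v fb` at every place, the differential
`(d fb / fb)` is regular at every cusp embedding. -/
theorem cusp_regular (fb : Fk k N) (hfb : fb ≠ 0)
    (hdiv : ∀ v : Place k (Fk k N), (p : ℤ) ∣ v.ord fb) (τ : Emb k N) (a : ℤ) (ha : a < 0) :
    (τ.1 (derivFk hNk t ht fb / fb) * D (τ.1 t)).coeff a = 0 := by
  have hτfb : τ.1 fb ≠ 0 := (map_ne_zero τ.1).2 hfb
  refine coeff_eq_zero_of_dvd_order p hτfb ?_ (dvd_order_emb p hNk fb hdiv τ) a ha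
  rw [D_emb hNk t ht τ fb, map_div₀]
  field_simp

/-- **INT (special-fibre form).**  The two hypotheses of `Omega4.exists_basis_span_four` for the
logarithmic differential of `fb`, together with its `q`-expansion. -/
theorem int_four (fb : Fk k N) (hfb : fb ≠ 0)
    (hdiv : ∀ v : Place k (Fk k N), (p : ℤ) ∣ v.ord fb)
    (hint : IsIntegral (Algebra.adjoin k {jFk k N}) (derivFk hNk t ht fb / fb)) :
    ∃ hb : Fk k N,
      (hb : LaurentSeries k) * (HahnSeries.single (1 : ℤ) (1 : k) * D (TLine4.x4k k)) =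
        Fermat.Agent.S40x.C2.DlogHecke.dlog (fb : LaurentSeries k) ∧
      IsIntegral (Algebra.adjoin k {jFk k N}) hb ∧
      ∀ (τ : Emb k N) (a : ℤ), a < 0 → (τ.1 hb * D (τ.1 t)).coeff a = 0 :=
  ⟨derivFk hNk t ht fb / fb, coe_mul_theta hNk t ht fb, hint,
    cusp_regular p hNk t ht fb hfb hdiv⟩

end CuspRegular

end Fermat.Agent.S40x.C2.IntB.Main
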